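import Fermat.Agent.H23.EC.UnitEq
import Fermat.Agent.CFT.EC.Art3

/-!
# The Galois structure of `S`-units, unconditional
-/

set_option autoImplicit false

namespace Fermat.Agent.H23.EC

open Fermat.Agent.CFT.EC

/-- (B) **the Galois structure of `S`-units** -/
theorem unitEq (p : ℕ) [Fact p.Prime] : UnitEq p := unitEq_of p (latticeEq Fact.out)

end Fermat.Agent.H23.EC
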