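import Fermat.Agent.H23.EC.AddFLem

/-!
# Torsion free quotients, the abstract computation
-/

set_option autoImplicit false
set_option linter.unusedSectionVars false
set_option linter.style.haveILetI false

noncomputable section

namespace Fermat.Agent.H23.EC

open Module Fermat.Agent.CFT.EC

variable {p : ℕ} {Γ : Type} [Group Γ]

/-- the torsion subgroup -/
def tor (L : Type) [AddCommGroup L] : AddSubgroup L where
  carrier := {x | ∃ n : ℕ, 0 < n ∧ n • x = 0}
  zero_mem' := ⟨1, Nat.one_pos, smul_zero _⟩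
  add_mem' := by
    rintro x y ⟨n, hn, hx⟩ ⟨m, hm, hy⟩
    refine ⟨n * m, Nat.mul_pos hn hm, ?_⟩
    rw [smul_add, mul_smul, mul_smul, hy, smul_zero, add_zero, smul_comm, hx, smul_zero]
  neg_mem' := by
    rintro x ⟨n, hn, hx⟩
    exact ⟨n, hn, by rw [smul_neg, hx, neg_zero]⟩

section TF

variable {L : Type} [AddCommGroup L]

theorem mem_tor {x : L} : x ∈ tor L ↔ ∃ n : ℕ, 0 < n ∧ n • x = 0 := Iff.rfl

/-- the torsion free quotient -/
def TF (L : Type) [AddCommGroup L] : Type := L ⧸ tor L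

instance : AddCommGroup (TF L) := inferInstanceAs (AddCommGroup (L ⧸ tor L))

/-- projection -/
def TF.mk (L : Type) [AddCommGroup L] : L →+ TF L := QuotientAddGroup.mk' (tor L)

theorem TF.mk_surjective : Function.Surjective (TF.mk L) := QuotientAddGroup.mk'_surjective _

theorem TF.mk_eq_zero {x : L} : TF.mk L x = 0 ↔ x ∈ tor L := QuotientAddGroup.eq_zero_iff x

theorem TF.tf (x : TF L) (n : ℕ) (hn : 0 < n) (h : n • x = 0) : x = 0 := by
  obtain ⟨x, rfl⟩ := TF.mk_surjective x
  rw [← map_nsmul, TF.mk_eq_zero] at h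
  obtain ⟨m, hm, hx⟩ := h
  rw [TF.mk_eq_zero]
  exact ⟨m * n, Nat.mul_pos hm hn, by rw [mul_smul, hx]⟩

/-- maps to torsion free groups factor -/
def TF.lift {V : Type} [AddCommGroup V] (f : L →+ V)
    (hV : ∀ (n : ℕ) (v : V), 0 < n → n • v = 0 → v = 0) : TF L →+ V :=
  QuotientAddGroup.lift (tor L) f (by
    rintro x ⟨n, hn, hx⟩
    change f x = 0
    apply hV n _ hn
    rw [← map_nsmul, hx, map_zero])

theorem TF.lift_mk {V : Type} [AddCommGroup V] (f : L →+ V)
    (hV : ∀ (n : ℕ) (v : V), 0 < n → n • v = 0 → v = 0) (x : L) :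
    TF.lift f hV (TF.mk L x) = f x := rfl

variable [DistribMulAction Γ L]

theorem smul_mem_tor (g : Γ) {x : L} (hx : x ∈ tor L) : g • x ∈ tor L := by
  obtain ⟨n, hn, hx⟩ := hx
  exact ⟨n, hn, by rw [smul_comm, hx, smul_zero]⟩

instance : DistribMulAction Γ (tor L) where
  smul g x := ⟨g • x.1, smul_mem_tor g x.2⟩
  one_smul _ := Subtype.ext (one_smul _ _)
  mul_smul _ _ _ := Subtype.ext (mul_smul _ _ _)
  smul_zero g := Subtype.ext (smul_zero g)
  smul_add g _ _ := Subtype.ext (smul_add g _ _)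

theorem tor_smul_coe (g : Γ) (x : tor L) : ((g • x : tor L) : L) = g • (x : L) := rfl

/-- the action on the torsion free quotient -/
def TF.act (g : Γ) : TF L →+ TF L :=
  QuotientAddGroup.map (tor L) (tor L) (DistribSMul.toAddMonoidHom L g)
    (fun _ hx => smul_mem_tor g hx)

instance : DistribMulAction Γ (TF L) where
  smul g x := TF.act g x
  one_smul x := by
    obtain ⟨x, rfl⟩ := TF.mk_surjective x
    change TF.mk L ((1 : Γ) • x) = _
    rw [one_smul]
  mul_smul g h x := by
    obtain ⟨x, rfl⟩ := TF.mk_surjective x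
    change TF.mk L ((g * h) • x) = TF.mk L (g • h • x)
    rw [mul_smul]
  smul_zero g := map_zero (TF.act g)
  smul_add g x y := map_add (TF.act g) x y

theorem TF.smul_mk (g : Γ) (x : L) : g • TF.mk L x = TF.mk L (g • x) := rfl

theorem TF.finite [Module.Finite ℤ L] : Module.Finite ℤ (TF L) :=
  Module.Finite.of_surjective (TF.mk L).toIntLinearMap TF.mk_surjective

theorem TF.finrank_le [Module.Finite ℤ L] : finrank ℤ (TF L) ≤ finrank ℤ L :=
  LinearMap.finrank_le_finrank_of_surjective (f := (TF.mk L).toIntLinearMap) TF.mk_surjective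

theorem TF.free [Module.Finite ℤ L] : Module.Free ℤ (TF L) := by
  haveI := TF.finite (L := L)
  haveI : IsTorsionFree ℤ (TF L) := by
    apply IsTorsionFree.of_smul_eq_zero
    intro r m hm
    by_cases hr : r = 0
    · exact Or.inl hr
    · right
      refine TF.tf m r.natAbs (Int.natAbs_pos.mpr hr) ?_
      rcases Int.natAbs_eq r with h | h
      · rw [h, natCast_zsmul] at hm
        exact hm
      · rw [h, neg_smul, natCast_zsmul, neg_eq_zero] at hm
        exact hm
  exact Module.free_of_finite_type_torsion_free'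

end TF

variable [Finite Γ]

/-- the permutation action on real functions -/
def permR (X : Type) [MulAction Γ X] (g : Γ) : (X → ℝ) →ₗ[ℝ] (X → ℝ) where
  toFun f x := f (g⁻¹ • x)
  map_add' _ _ := rfl
  map_smul' _ _ := rfl

theorem real_tf {ι : Type} (n : ℕ) (v : ι → ℝ) (hn : 0 < n) (h : n • v = 0) : v = 0 := by
  funext i
  have h1 := congrFun h i
  rw [Pi.smul_apply, nsmul_eq_mul, Pi.zero_apply] at h1
  exact (mul_eq_zero.mp h1).resolve_left (Nat.cast_ne_zero.mpr hn.ne')

theorem eq_top_of_functional {X Y : Type} [Finite X] [Finite Y]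
    (W : Submodule ℝ ((X → ℝ) × (Y → ℝ)))
    (h : ∀ F : ((X → ℝ) × (Y → ℝ)) →ₗ[ℝ] ℝ, (∀ w ∈ W, F w = 0) → F = 0) : W = ⊤ := by
  by_contra hne
  obtain ⟨F, hF0, hF⟩ := Submodule.exists_le_ker_of_lt_top W (lt_top_iff_ne_top.mpr hne)
  exact hF0 (h F fun w hw => hF hw)

end Fermat.Agent.H23.EC
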