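import Fermat.Agent.H23.EC.Abs

/-!
# The abstract computation
-/

set_option autoImplicit false
set_option linter.unusedSectionVars false
set_option linter.style.haveILetI false

noncomputable section

namespace Fermat.Agent.H23.EC

open Module Fermat.Agent.CFT.EC

variable {p : ℕ} {Γ : Type} [Group Γ]

/-- `Pm X ℤ` as a free module -/
def pmEquiv (X : Type) : (X → ℤ) ≃ₗ[ℤ] Pm X ℤ :=
  AddEquiv.toIntLinearEquiv (AddEquiv.refl (X → ℤ) : (X → ℤ) ≃+ Pm X ℤ)

/-- `Tv ℤ` as a free module -/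
def tvEquiv : ℤ ≃ₗ[ℤ] Tv ℤ :=
  AddEquiv.toIntLinearEquiv (AddEquiv.refl ℤ : ℤ ≃+ Tv ℤ)

instance (X : Type) [Finite X] : Module.Free ℤ (Pm X ℤ) := Module.Free.of_equiv (pmEquiv X)

instance (X : Type) [Finite X] : Module.Finite ℤ (Pm X ℤ) := Module.Finite.equiv (pmEquiv X)

instance : Module.Free ℤ (Tv ℤ) := Module.Free.of_equiv tvEquiv

instance : Module.Finite ℤ (Tv ℤ) := Module.Finite.equiv tvEquiv

theorem finrank_Pm (X : Type) [Fintype X] : finrank ℤ (Pm X ℤ) = Fintype.card X := by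
  rw [← (pmEquiv X).finrank_eq, finrank_pi]

theorem finrank_Tv : finrank ℤ (Tv ℤ) = 1 := by
  rw [← tvEquiv.finrank_eq, finrank_self]

section perm

variable {X Y : Type} [Fintype X] [Fintype Y] [MulAction Γ X] [MulAction Γ Y]

/-- the inclusion of the permutation lattice -/
def castPm (X : Type) : Pm X ℤ →+ (X → ℝ) :=
  AddMonoidHom.mk' (fun f x => ((f x : ℤ) : ℝ)) (fun _ _ => funext fun _ => Int.cast_add _ _)

/-- the permutation action -/
def permV (g : Γ) : ((X → ℝ) × (Y → ℝ)) →ₗ[ℝ] ((X → ℝ) × (Y → ℝ)) :=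
  (permR X g).prodMap (permR Y g)

theorem finrank_V : finrank ℝ ((X → ℝ) × (Y → ℝ)) = Fintype.card X + Fintype.card Y := by
  rw [finrank_prod, finrank_pi, finrank_pi]

theorem functional_eq (F : ((X → ℝ) × (Y → ℝ)) →ₗ[ℝ] ℝ) :
    ∃ (a : X → ℝ) (b : Y → ℝ), ∀ v, F v = ∑ e, a e * v.1 e + ∑ e, b e * v.2 e := by
  classical
  refine ⟨fun e => F (Pi.single e 1, 0), fun e => F (0, Pi.single e 1), fun v => ?_⟩
  have h1 : v = ∑ e, v.1 e • ((Pi.single e 1, 0) : (X → ℝ) × (Y → ℝ)) +
      ∑ e, v.2 e • ((0, Pi.single e 1) : (X → ℝ) × (Y → ℝ)) := by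
    apply Prod.ext
    · rw [Prod.fst_add, Prod.fst_sum, Prod.fst_sum]
      funext x
      rw [Pi.add_apply, Finset.sum_apply, Finset.sum_apply, Finset.sum_eq_single x]
      · simp
      · intro y _ hy
        simp [Pi.single_eq_of_ne hy.symm]
      · intro h
        exact absurd (Finset.mem_univ _) h
    · rw [Prod.snd_add, Prod.snd_sum, Prod.snd_sum]
      funext x
      rw [Pi.add_apply, Finset.sum_apply, Finset.sum_apply]
      conv_rhs => rw [add_comm]
      rw [Finset.sum_eq_single x]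
      · simp
      · intro y _ hy
        simp [Pi.single_eq_of_ne hy.symm]
      · intro h
        exact absurd (Finset.mem_univ _) h
  conv_lhs => rw [h1]
  rw [map_add, map_sum, map_sum]
  congr 1
  · refine Finset.sum_congr rfl fun e _ => ?_
    rw [map_smul, smul_eq_mul, mul_comm]
  · refine Finset.sum_congr rfl fun e _ => ?_
    rw [map_smul, smul_eq_mul, mul_comm]

theorem trace_perm (g : Γ) :
    ((tr g (Pm X ℤ × Pm Y ℤ) : ℤ) : ℝ) = LinearMap.trace ℝ _ (permV (X := X) (Y := Y) g) := by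
  classical
  refine trace_eq_of_span ((castPm X).prodMap (castPm Y)) _ (permV g) ?_ ?_ ?_
  · apply eq_top_of_functional
    intro F hF
    obtain ⟨a, b, hab⟩ := functional_eq F
    have h1 : ∀ (f : Pm X ℤ) (f' : Pm Y ℤ),
        ∑ e, a e * ((f e : ℤ) : ℝ) + ∑ e, b e * ((f' e : ℤ) : ℝ) = 0 := by
      intro f f'
      have := hF (((castPm X).prodMap (castPm Y)) (f, f')) (Submodule.subset_span ⟨_, rfl⟩)
      rw [hab] at this
      exact this
    have ha : ∀ e, a e = 0 := by
      intro e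
      have h2 := h1 (Pi.single e 1 : X → ℤ) (0 : Y → ℤ)
      rw [Finset.sum_eq_single e] at h2
      · simpa using h2
      · intro y _ hy
        rw [Pi.single_eq_of_ne hy]
        simp
      · intro h
        exact absurd (Finset.mem_univ _) h
    have hb : ∀ e, b e = 0 := by
      intro e
      have h2 := h1 (0 : X → ℤ) (Pi.single e 1 : Y → ℤ)
      rw [add_comm, Finset.sum_eq_single e] at h2
      · simpa using h2
      · intro y _ hy
        rw [Pi.single_eq_of_ne hy]
        simp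
      · intro h
        exact absurd (Finset.mem_univ _) h
    apply LinearMap.ext
    intro v
    rw [hab]
    simp [ha, hb]
  · rw [finrank_V, finrank_prod, finrank_Pm, finrank_Pm]
  · rintro ⟨f, f'⟩
    rfl

variable {L : Type} [AddCommGroup L] [DistribMulAction Γ L] [Module.Finite ℤ L]
  (lX : L →+ (X → ℝ)) (lY : L →+ (Y → ℝ))

/-- the map of the lattice to the real vector space -/
def lamV : TF L →+ ((X → ℝ) × (Y → ℝ)) :=
  TF.lift (lX.prod lY) (fun n v hn h => Prod.ext
    (real_tf n v.1 hn (congrArg Prod.fst h)) (real_tf n v.2 hn (congrArg Prod.snd h)))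

/-- the constant vector -/
def oneV : Tv ℤ →+ ((X → ℝ) × (Y → ℝ)) :=
  (AddMonoidHom.mk' (fun (n : ℤ) => ((0, fun _ => (n : ℝ)) : (X → ℝ) × (Y → ℝ)))
    (fun _ _ => Prod.ext (add_zero _).symm (funext fun _ => Int.cast_add _ _)) :
      ℤ →+ ((X → ℝ) × (Y → ℝ)))

/-- the map -/
def PhiV : TF L × Tv ℤ →+ ((X → ℝ) × (Y → ℝ)) := (lamV lX lY).coprod oneV

variable (hX : ∀ (g : Γ) (x : L) (e : X), lX (g • x) e = lX x (g⁻¹ • e))
  (hY : ∀ (g : Γ) (x : L) (e : Y), lY (g • x) e = lY x (g⁻¹ • e))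
  (hrank : finrank ℤ L + 1 ≤ Fintype.card X + Fintype.card Y)
  (hsp : ∀ (a : X → ℝ) (b : Y → ℝ), (∀ x : L, ∑ e, a e * lX x e + ∑ e, b e * lY x e = 0) →
    ∑ e, b e = 0 → (∀ e, a e = 0) ∧ ∀ e, b e = 0)

include hX hY hrank hsp in
theorem trace_TF (g : Γ) :
    ((tr g (TF L × Tv ℤ) : ℤ) : ℝ) = LinearMap.trace ℝ _ (permV (X := X) (Y := Y) g) := by
  haveI := TF.finite (L := L)
  haveI := TF.free (L := L)
  refine trace_eq_of_span (PhiV lX lY) _ (permV g) ?_ ?_ ?_
  · apply eq_top_of_functional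
    intro F hF
    obtain ⟨a, b, hab⟩ := functional_eq F
    have h1 : ∀ (x : L) (n : ℤ),
        ∑ e, a e * lX x e + ∑ e, b e * (lY x e + n) = 0 := by
      intro x n
      have := hF (PhiV lX lY (TF.mk L x, n)) (Submodule.subset_span ⟨_, rfl⟩)
      rw [hab] at this
      have e1 : ∀ e, (PhiV lX lY (TF.mk L x, n)).1 e = lX x e := fun e => add_zero _
      have e2 : ∀ e, (PhiV lX lY (TF.mk L x, n)).2 e = lY x e + n := fun e => rfl
      simp_rw [e1, e2] at this
      exact this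
    have h2 : ∑ e, b e = 0 := by
      have := h1 0 1
      simp_rw [map_zero, Pi.zero_apply, mul_zero, zero_add, Int.cast_one, mul_one] at this
      simpa using this
    obtain ⟨ha, hb⟩ := hsp a b (fun x => by
      have := h1 x 0
      simpa using this) h2
    apply LinearMap.ext
    intro v
    rw [hab]
    simp [ha, hb]
  · rw [finrank_V, finrank_prod, finrank_Tv]
    exact (Nat.add_le_add_right TF.finrank_le 1).trans hrank
  · rintro ⟨x, n⟩
    obtain ⟨x, rfl⟩ := TF.mk_surjective x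
    apply Prod.ext
    · funext e
      change lX x (g⁻¹ • e) + 0 = lX (g • x) e + 0
      rw [hX]
    · funext e
      change lY x (g⁻¹ • e) + @Int.cast ℝ _ n = lY (g • x) e + @Int.cast ℝ _ n
      rw [hY]

include hX hY hrank hsp in
/-- **the abstract theorem** -/
theorem main_abstract [Fact p.Prime] [Finite Γ] (hLE : LatticeEq p) (E : AddF p Γ) (M : Type)
    [AddCommGroup M] [DistribMulAction Γ M] (hM : E.d (LP p (tor L)) = E.d M) :
    E.d (LP p L) + E.d (Tv (ZMod p)) =
      E.d M + E.d (Pm X (ZMod p)) + E.d (Pm Y (ZMod p)) := by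
  have hp : p.Prime := Fact.out
  haveI := TF.finite (L := L)
  haveI := TF.free (L := L)
  have h1 : E.d (LP p (TF L × Tv ℤ)) = E.d (LP p (Pm X ℤ × Pm Y ℤ)) := by
    apply hLE Γ E
    intro g
    have := (trace_TF lX lY hX hY hrank hsp g).trans (trace_perm g).symm
    exact_mod_cast this
  rw [d_LP_prod E _ _ (finite_LP hp.ne_zero) (finite_LP hp.ne_zero),
    d_LP_prod E _ _ (finite_LP hp.ne_zero) (finite_LP hp.ne_zero), d_LP_Tv, d_LP_Pm, d_LP_Pm] at h1
  have h2 : E.d (LP p L) = E.d (LP p (tor L)) + E.d (LP p (TF L)) := by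
    refine d_LP_ext E (finite_LP hp.ne_zero) (tor L).subtype (TF.mk L) (fun _ _ => rfl)
      (fun _ _ => rfl) Subtype.val_injective TF.mk_surjective (fun b => ?_)
      (fun n hn => TF.tf n p hp.pos hn)
    rw [TF.mk_eq_zero]
    exact ⟨fun h => ⟨⟨b, h⟩, rfl⟩, by rintro ⟨a, rfl⟩; exact a.2⟩
  rw [h2, hM]
  linarith

end perm

end Fermat.Agent.H23.EC
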