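import Fermat.Agent.H23.EC.LinTr

/-!
# Additive functions : elementary properties
-/

set_option autoImplicit false
set_option linter.unusedSectionVars false
set_option linter.style.haveILetI false

noncomputable section

namespace Fermat.Agent.H23.EC

open Module Fermat.Agent.CFT.EC

variable {p : ℕ} {Γ : Type} [Group Γ] (E : AddF p Γ)

section basic

variable {M N : Type} [AddCommGroup M] [AddCommGroup N] [DistribMulAction Γ M]
  [DistribMulAction Γ N]

theorem d_sub [Subsingleton M] : E.d M = 0 := by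
  have h := E.add (A := M) (B := M) (C := M) (Finite.of_subsingleton) (fun b => Subsingleton.elim _ _)
    (AddMonoidHom.id M) (AddMonoidHom.id M) (fun _ _ => rfl) (fun _ _ => rfl)
    Function.injective_id Function.surjective_id
    (fun b => ⟨fun _ => ⟨b, rfl⟩, fun _ => Subsingleton.elim _ _⟩)
  linarith

/-- invariance under isomorphisms -/
theorem d_congr (hf : Finite N) (hp : ∀ b : N, p • b = 0) (f : M →+ N)
    (hf1 : ∀ (g : Γ) (x : M), f (g • x) = g • f x) (hb : Function.Bijective f) :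
    E.d M = E.d N := by
  have h := E.add (A := M) (B := N) (C := Tv PUnit) hf hp f 0 hf1
    (fun _ _ => rfl) hb.1 (fun x => ⟨0, rfl⟩)
    (fun b => ⟨fun _ => hb.2 b, fun _ => rfl⟩)
  have h2 : E.d (Tv PUnit) = 0 := by
    haveI : Subsingleton (Tv PUnit) := inferInstanceAs (Subsingleton PUnit)
    exact d_sub E
  rw [h, h2, add_zero]

/-- additivity for products -/
theorem d_prod [Finite M] [Finite N] (hM : ∀ b : M, p • b = 0) (hN : ∀ b : N, p • b = 0) :
    E.d (M × N) = E.d M + E.d N := by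
  refine E.add (A := M) (B := M × N) (C := N) inferInstance
    (fun b => Prod.ext (hM b.1) (hN b.2)) (AddMonoidHom.inl M N) (AddMonoidHom.snd M N)
    (fun g a => ?_) (fun _ _ => rfl) (fun a b h => congrArg Prod.fst h)
    (fun b => ⟨(0, b), rfl⟩) (fun b => ?_)
  · exact Prod.ext rfl (smul_zero g).symm
  · constructor
    · intro h
      exact ⟨b.1, Prod.ext rfl h.symm⟩
    · rintro ⟨a, rfl⟩
      rfl

/-- identification of `L / p` -/
theorem d_LP (hf : Finite N) (hp : ∀ b : N, p • b = 0) (f : M →+ N)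
    (hf1 : ∀ (g : Γ) (x : M), f (g • x) = g • f x) (hs : Function.Surjective f)
    (hk : ∀ x, f x = 0 → ∃ y : M, p • y = x) : E.d (LP p M) = E.d N := by
  set F : LP p M →+ N := QuotientAddGroup.lift _ f (by
    rintro _ ⟨y, rfl⟩
    change f (p • y) = 0
    rw [map_nsmul, hp]) with hF
  have hFmk : ∀ x, F (LP.mk p M x) = f x := fun x => rfl
  refine d_congr E hf hp F (fun g x => ?_) ⟨?_, fun y => ?_⟩
  · obtain ⟨x, rfl⟩ := LP.mk_surjective x
    rw [LP.smul_mk, hFmk, hFmk, hf1]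
  · rw [injective_iff_map_eq_zero]
    intro x hx
    obtain ⟨x, rfl⟩ := LP.mk_surjective x
    rw [LP.mk_eq_zero]
    exact hk x hx
  · obtain ⟨x, rfl⟩ := hs y
    exact ⟨LP.mk p M x, rfl⟩

theorem finite_LP (hp0 : p ≠ 0) [Module.Finite ℤ M] : Finite (LP p M) := by
  haveI : Module.Finite ℤ (LP p M) :=
    Module.Finite.of_surjective (LP.mk p M).toIntLinearMap LP.mk_surjective
  refine Module.finite_of_fg_torsion (LP p M) fun x => ?_
  refine ⟨⟨(p : ℤ), mem_nonZeroDivisors_of_ne_zero (Int.natCast_ne_zero.mpr hp0)⟩, ?_⟩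
  change (p : ℤ) • x = 0
  rw [natCast_zsmul]
  exact LP.killed x

end basic

section ext

variable {T L N : Type} [AddCommGroup T] [AddCommGroup L] [AddCommGroup N]
  [DistribMulAction Γ T] [DistribMulAction Γ L] [DistribMulAction Γ N]

/-- reduction of an extension by a torsion free module -/
theorem d_LP_ext (hf : Finite (LP p L)) (i : T →+ L) (j : L →+ N)
    (hi1 : ∀ (g : Γ) (x : T), i (g • x) = g • i x)
    (hj1 : ∀ (g : Γ) (x : L), j (g • x) = g • j x)
    (hi : Function.Injective i) (hj : Function.Surjective j)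
    (hij : ∀ b, j b = 0 ↔ ∃ a, i a = b) (htf : ∀ n : N, p • n = 0 → n = 0) :
    E.d (LP p L) = E.d (LP p T) + E.d (LP p N) := by
  refine E.add hf LP.killed (LP.map p i) (LP.map p j) (fun g x => ?_) (fun g x => ?_) ?_ ?_ ?_
  · obtain ⟨x, rfl⟩ := LP.mk_surjective x
    rw [LP.smul_mk, LP.map_mk, LP.map_mk, hi1, LP.smul_mk]
  · obtain ⟨x, rfl⟩ := LP.mk_surjective x
    rw [LP.smul_mk, LP.map_mk, LP.map_mk, hj1, LP.smul_mk]
  · rw [injective_iff_map_eq_zero]
    intro x hx
    obtain ⟨x, rfl⟩ := LP.mk_surjective x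
    rw [LP.map_mk, LP.mk_eq_zero] at hx
    obtain ⟨y, hy⟩ := hx
    have h1 : j y = 0 := by
      apply htf
      rw [← map_nsmul, hy]
      exact (hij _).mpr ⟨x, rfl⟩
    obtain ⟨z, hz⟩ := (hij y).mp h1
    rw [LP.mk_eq_zero]
    refine ⟨z, hi ?_⟩
    rw [map_nsmul, hz, hy]
  · intro x
    obtain ⟨x, rfl⟩ := LP.mk_surjective x
    obtain ⟨y, rfl⟩ := hj x
    exact ⟨LP.mk p L y, rfl⟩
  · intro x
    obtain ⟨x, rfl⟩ := LP.mk_surjective x
    constructor
    · intro h
      rw [LP.map_mk, LP.mk_eq_zero] at h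
      obtain ⟨n, hn⟩ := h
      obtain ⟨y, rfl⟩ := hj n
      have h1 : j (x - p • y) = 0 := by
        rw [map_sub, map_nsmul, hn, sub_self]
      obtain ⟨t, ht⟩ := (hij _).mp h1
      refine ⟨LP.mk p T t, ?_⟩
      rw [LP.map_mk, ht, map_sub]
      have h2 : LP.mk p L (p • y) = 0 := LP.mk_eq_zero.mpr ⟨y, rfl⟩
      rw [h2, sub_zero]
    · rintro ⟨t, ht⟩
      obtain ⟨t, rfl⟩ := LP.mk_surjective t
      rw [← ht, LP.map_mk, LP.map_mk]
      have h1 : j (i t) = 0 := (hij _).mpr ⟨t, rfl⟩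
      rw [h1, map_zero]

end ext

section concrete

variable [Fact p.Prime]

theorem d_LP_Pm (X : Type) [Finite X] [MulAction Γ X] :
    E.d (LP p (Pm X ℤ)) = E.d (Pm X (ZMod p)) := by
  haveI : NeZero p := ⟨(Fact.out : p.Prime).ne_zero⟩
  haveI : Finite (Pm X (ZMod p)) := inferInstanceAs (Finite (X → ZMod p))
  refine d_LP E inferInstance (fun b => ?_)
    (AddMonoidHom.mk' (fun (f : Pm X ℤ) => ((fun x => ((f x : ℤ) : ZMod p)) : Pm X (ZMod p)))
      (fun f f' => ?_)) (fun g f => rfl) (fun f => ?_) (fun f hf => ?_)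
  · funext x
    change p • b x = 0
    rw [nsmul_eq_mul, CharP.cast_eq_zero, zero_mul]
  · funext x
    exact Int.cast_add _ _
  · choose F hF using fun x => ZMod.intCast_surjective (f x)
    exact ⟨F, funext fun x => hF x⟩
  · have h1 : ∀ x, (p : ℤ) ∣ f x := fun x => by
      rw [← ZMod.intCast_zmod_eq_zero_iff_dvd]
      exact congrFun hf x
    choose F hF using h1
    refine ⟨F, funext fun x => ?_⟩
    change p • F x = f x
    rw [nsmul_eq_mul, hF]

theorem zmod_killed (b : ZMod p) : p • b = 0 := by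
  rw [nsmul_eq_mul, CharP.cast_eq_zero, zero_mul]

theorem int_div_of (f : ℤ) (hf : (f : ZMod p) = 0) : ∃ F : ℤ, p • F = f := by
  have h1 : (p : ℤ) ∣ f := by
    rw [← ZMod.intCast_zmod_eq_zero_iff_dvd]
    exact hf
  obtain ⟨F, hF⟩ := h1
  refine ⟨F, ?_⟩
  rw [hF]
  exact nsmul_eq_mul _ _

theorem d_LP_Tv : E.d (LP p (Tv ℤ)) = E.d (Tv (ZMod p)) := by
  haveI : NeZero p := ⟨(Fact.out : p.Prime).ne_zero⟩
  haveI : Finite (Tv (ZMod p)) := inferInstanceAs (Finite (ZMod p))
  refine d_LP E inferInstance (fun b => ?_)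
    (Int.castAddHom (ZMod p) : Tv ℤ →+ Tv (ZMod p)) (fun g f => rfl) (fun f => ?_) (fun f hf => ?_)
  · exact zmod_killed (p := p) b
  · exact ZMod.intCast_surjective f
  · exact int_div_of f hf

theorem d_LP_prod (M N : Type) [AddCommGroup M] [AddCommGroup N] [DistribMulAction Γ M]
    [DistribMulAction Γ N] (hM : Finite (LP p M)) (hN : Finite (LP p N)) :
    E.d (LP p (M × N)) = E.d (LP p M) + E.d (LP p N) := by
  rw [← d_prod E (LP.killed (p := p) (L := M)) (LP.killed (p := p) (L := N))]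
  refine d_LP E inferInstance (fun b => Prod.ext (LP.killed b.1) (LP.killed b.2))
    ((LP.mk p M).prodMap (LP.mk p N)) (fun g f => rfl) (fun f => ?_) (fun f hf => ?_)
  · obtain ⟨x, hx⟩ := LP.mk_surjective f.1
    obtain ⟨y, hy⟩ := LP.mk_surjective f.2
    exact ⟨(x, y), Prod.ext hx hy⟩
  · obtain ⟨x, hx⟩ := LP.mk_eq_zero.mp (congrArg Prod.fst hf)
    obtain ⟨y, hy⟩ := LP.mk_eq_zero.mp (congrArg Prod.snd hf)
    exact ⟨(x, y), Prod.ext hx hy⟩

end concrete

end Fermat.Agent.H23.EC
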