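import Mathlib

/-!
# Linear relations between logarithms of units
-/

set_option autoImplicit false
set_option linter.unusedSectionVars false
set_option linter.style.haveILetI false

noncomputable section

namespace Fermat.Agent.H23.EC

open Module NumberField NumberField.Units NumberField.InfinitePlace
open NumberField.Units.dirichletUnitTheorem
open scoped Classical

variable {K : Type*} [Field K] [NumberField K]

theorem dirichlet_functional (b : InfinitePlace K → ℝ)
    (hb : ∀ u : (𝓞 K)ˣ, ∑ w, b w * Real.log (w (u : K)) = 0) :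
    ∃ c : ℝ, ∀ w : InfinitePlace K, b w = c * mult w := by
  have hm : ∀ w : InfinitePlace K, (mult w : ℝ) ≠ 0 := fun w => mult_coe_ne_zero
  set c : ℝ := b w₀ / mult (w₀ : InfinitePlace K) with hc
  set F : logSpace K →ₗ[ℝ] ℝ :=
    ∑ w : {w : InfinitePlace K // w ≠ w₀}, (b w.1 / mult w.1 - c) • LinearMap.proj w with hF
  have hFapp : ∀ f, F f = ∑ w : {w : InfinitePlace K // w ≠ w₀}, (b w.1 / mult w.1 - c) * f w := by
    intro f
    rw [hF, LinearMap.sum_apply]
    rfl
  have h1 : ∀ u : (𝓞 K)ˣ, F (logEmbedding K (Additive.ofMul u)) = 0 := by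
    intro u
    rw [hFapp]
    have h2 := hb u
    rw [Fintype.sum_eq_add_sum_subtype_ne _ w₀] at h2
    have h3 := sum_logEmbedding_component u
    have h4 : ∑ w : {w : InfinitePlace K // w ≠ w₀}, (b w.1 / mult w.1 - c) *
        logEmbedding K (Additive.ofMul u) w =
        ∑ w : {w : InfinitePlace K // w ≠ w₀}, b w.1 * Real.log (w.1 (u : K)) -
        c * ∑ w : {w : InfinitePlace K // w ≠ w₀}, logEmbedding K (Additive.ofMul u) w := by
      rw [Finset.mul_sum, ← Finset.sum_sub_distrib]
      refine Finset.sum_congr rfl fun w _ => ?_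
      rw [logEmbedding_component]
      have := hm w.1
      field_simp
    rw [h4, h3, hc]
    have h5 := hm (w₀ : InfinitePlace K)
    have h6 : b w₀ / mult (w₀ : InfinitePlace K) *
      (-mult (w₀ : InfinitePlace K) * Real.log ((w₀ : InfinitePlace K) (u : K))) =
      -(b w₀ * Real.log ((w₀ : InfinitePlace K) (u : K))) := by
      field_simp
    rw [h6]
    linarith
  have h2 : F = 0 := by
    have h3 : (⊤ : Submodule ℝ (logSpace K)) ≤ LinearMap.ker F := by
      rw [← unitLattice_span_eq_top K, Submodule.span_le]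
      rintro _ ⟨u, -, rfl⟩
      exact h1 u.toMul
    exact LinearMap.ker_eq_top.mp (top_le_iff.mp h3)
  refine ⟨c, fun w => ?_⟩
  by_cases hw : w = w₀
  · rw [hw, hc, div_mul_cancel₀ _ (hm w₀)]
  · have h3 := LinearMap.congr_fun h2 (Pi.single (⟨w, hw⟩ : {w : InfinitePlace K // w ≠ w₀}) 1)
    rw [hFapp, Finset.sum_eq_single (⟨w, hw⟩ : {w : InfinitePlace K // w ≠ w₀})] at h3
    · rw [Pi.single_eq_same, mul_one, LinearMap.zero_apply] at h3
      have h4 := hm w
      have h5 : b w / mult w = c := by linarith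
      rw [← h5, div_mul_cancel₀ _ h4]
    · intro w' _ hne
      rw [Pi.single_eq_of_ne hne, mul_zero]
    · intro h
      exact absurd (Finset.mem_univ _) h

/-- a combination of weight zero of the logarithms which vanishes on the units vanishes -/
theorem dirichlet_functional_zero (b : InfinitePlace K → ℝ)
    (hb : ∀ u : (𝓞 K)ˣ, ∑ w, b w * Real.log (w (u : K)) = 0) (h0 : ∑ w, b w = 0) :
    ∀ w : InfinitePlace K, b w = 0 := by
  obtain ⟨c, hc⟩ := dirichlet_functional b hb
  have h1 : c * ∑ w : InfinitePlace K, (mult w : ℝ) = 0 := by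
    rw [Finset.mul_sum, ← h0]
    exact Finset.sum_congr rfl fun w _ => (hc w).symm
  have h2 : 0 < ∑ w : InfinitePlace K, (mult w : ℝ) :=
    Finset.sum_pos (fun w _ => Nat.cast_pos.mpr mult_pos) Finset.univ_nonempty
  have h3 : c = 0 := (mul_eq_zero.mp h1).resolve_right h2.ne'
  intro w
  rw [hc, h3, zero_mul]

end Fermat.Agent.H23.EC
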