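import Fermat.Agent.CFT.EC.Defs

/-!
# Comparison of traces of lattices with traces of real vector spaces
-/

set_option autoImplicit false
set_option linter.unusedSectionVars false
set_option linter.style.haveILetI false

noncomputable section

namespace Fermat.Agent.H23.EC

open Module Fermat.Agent.CFT.EC

section trace

variable {L V : Type*} [AddCommGroup L] [Module.Free ℤ L] [Module.Finite ℤ L]
  [AddCommGroup V] [Module ℝ V] [Module.Finite ℝ V]

theorem phi_eq_sum (Φ : L →+ V) {ι : Type*} [Fintype ι] (b : Basis ι ℤ L) (x : L) :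
    Φ x = ∑ i, ((b.repr x i : ℤ) : ℝ) • Φ (b i) := by
  conv_lhs => rw [← b.sum_repr x]
  rw [map_sum]
  refine Finset.sum_congr rfl fun i _ => ?_
  rw [map_zsmul, Int.cast_smul_eq_zsmul]

/-- a lattice spanning a real vector space of dimension at least its rank has the same traces -/
theorem trace_eq_of_span (Φ : L →+ V) (gL : L →ₗ[ℤ] L) (gV : V →ₗ[ℝ] V)
    (hspan : Submodule.span ℝ (Set.range Φ) = ⊤) (hr : finrank ℤ L ≤ finrank ℝ V)
    (hc : ∀ x, gV (Φ x) = Φ (gL x)) :
    ((LinearMap.trace ℤ L gL : ℤ) : ℝ) = LinearMap.trace ℝ V gV := by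
  classical
  set b := Module.finBasis ℤ L with hb
  have hsp : ⊤ ≤ Submodule.span ℝ (Set.range (fun i => Φ (b i))) := by
    rw [← hspan, Submodule.span_le]
    rintro _ ⟨x, rfl⟩
    rw [phi_eq_sum Φ b x]
    exact Submodule.sum_mem _ fun i _ => Submodule.smul_mem _ _ (Submodule.subset_span ⟨i, rfl⟩)
  have hcard : Fintype.card (Fin (finrank ℤ L)) = finrank ℝ V := by
    rw [Fintype.card_fin]
    refine le_antisymm hr ?_
    have h1 := finrank_range_le_card (R := ℝ) (fun i => Φ (b i))
    rw [Set.finrank, top_le_iff.mp hsp, finrank_top, Fintype.card_fin] at h1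
    exact h1
  set b' := basisOfTopLeSpanOfCardEqFinrank (fun i => Φ (b i)) hsp hcard with hb'
  have hb'app : ∀ i, b' i = Φ (b i) := fun i => by
    rw [hb', coe_basisOfTopLeSpanOfCardEqFinrank]
  rw [LinearMap.trace_eq_matrix_trace ℤ b, LinearMap.trace_eq_matrix_trace ℝ b', Matrix.trace,
    Matrix.trace, Int.cast_sum]
  refine Finset.sum_congr rfl fun i _ => ?_
  rw [Matrix.diag_apply, Matrix.diag_apply, LinearMap.toMatrix_apply, LinearMap.toMatrix_apply,
    hb'app, hc, phi_eq_sum Φ b (gL (b i))]
  simp_rw [← hb'app]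
  rw [map_sum, Finset.sum_apply']
  simp_rw [map_smul, Basis.repr_self, Finsupp.smul_single, smul_eq_mul, mul_one]
  rw [Finset.sum_eq_single i]
  · rw [Finsupp.single_eq_same]
  · intro j _ hj
    rw [Finsupp.single_eq_of_ne hj.symm]
  · intro h
    exact absurd (Finset.mem_univ _) h

end trace

end Fermat.Agent.H23.EC
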