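import Fermat.Agent.H23.EC.Rank

/-!
# Finite places over `S` and the coset spaces of decomposition groups
-/

set_option autoImplicit false
set_option linter.unusedSectionVars false
set_option linter.style.haveILetI false

noncomputable section

namespace Fermat.Agent.H23.EC

open Module NumberField IsDedekindDomain Fermat.Agent.CFT Fermat.Agent.CFT.EC Fermat.Agent.CC
open Fermat.Agent.TW (NVal)
open scoped Pointwise

variable {S : Finset Nat.Primes} {K : IntermediateField ℚ Qb}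

theorem fix_val [K.fixingSubgroup.Normal] {k : GQ} (hk : k ∈ K.fixingSubgroup) {x : Qb}
    (hx : x ∈ K) (g : GQ) : k (g x) = g x := by
  have h1 : g⁻¹ * k * g ∈ K.fixingSubgroup := by
    have h2 := (inferInstance : K.fixingSubgroup.Normal).conj_mem k hk g⁻¹
    rwa [inv_inv] at h2
  have h2 := (IntermediateField.mem_fixingSubgroup_iff K _).mp h1 x hx
  have h3 := congrArg g h2
  rw [AlgEquiv.mul_apply, AlgEquiv.mul_apply, ← AlgEquiv.mul_apply g g⁻¹, mul_inv_cancel,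
    AlgEquiv.one_apply] at h3
  exact h3

theorem mem_of_normal [K.fixingSubgroup.Normal] {x : Qb} (hx : x ∈ K) (g : GQ) : g x ∈ K := by
  have h1 : ∀ k ∈ K.fixingSubgroup, k (g x) = g x := fun k hk => fix_val hk hx g
  exact LF.mem_of_fixed K h1

variable [K.fixingSubgroup.Normal] {A : S → ValuationSubring Qb}

/-- the element `g` lies over the coset `e` -/
def IsRepF (e : SfK K S A) (g : GQ) : Prop :=
  e = ⟨e.1, (((g : GQ ⧸ K.fixingSubgroup)) : (GQ ⧸ K.fixingSubgroup) ⧸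
    (((A e.1).decompositionSubgroup ℚ).map (QuotientGroup.mk' K.fixingSubgroup)))⟩

/-- the coset of `g` -/
def cosF (A : S → ValuationSubring Qb) (q : S) (g : GQ) : SfK K S A :=
  ⟨q, (((g : GQ ⧸ K.fixingSubgroup)) : (GQ ⧸ K.fixingSubgroup) ⧸
    (((A q).decompositionSubgroup ℚ).map (QuotientGroup.mk' K.fixingSubgroup)))⟩

theorem exists_cosF (e : SfK K S A) : ∃ g : GQ, cosF A e.1 g = e := by
  obtain ⟨q, c⟩ := e
  obtain ⟨γ, rfl⟩ := QuotientGroup.mk_surjective c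
  obtain ⟨g, rfl⟩ := QuotientGroup.mk_surjective γ
  exact ⟨g, rfl⟩

theorem smul_cosF (q : S) (h g : GQ) :
    (h : GQ ⧸ K.fixingSubgroup) • (cosF A q g : SfK K S A) = cosF A q (h * g) := rfl

theorem cosF_eq_iff (q : S) (g g' : GQ) :
    (cosF A q g : SfK K S A) = cosF A q g' ↔
      ∃ k ∈ K.fixingSubgroup, ∃ d ∈ (A q).decompositionSubgroup ℚ, g' = k * g * d := by
  constructor
  · intro h
    have h1 : (((g : GQ ⧸ K.fixingSubgroup)) : (GQ ⧸ K.fixingSubgroup) ⧸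
      (((A q).decompositionSubgroup ℚ).map (QuotientGroup.mk' K.fixingSubgroup))) =
      (((g' : GQ ⧸ K.fixingSubgroup)) : (GQ ⧸ K.fixingSubgroup) ⧸
      (((A q).decompositionSubgroup ℚ).map (QuotientGroup.mk' K.fixingSubgroup))) :=
      eq_of_heq (Sigma.mk.inj h).2
    rw [QuotientGroup.eq] at h1
    obtain ⟨d, hd, hdg⟩ := h1
    have h2 : ((g * d : GQ) : GQ ⧸ K.fixingSubgroup) = (g' : GQ ⧸ K.fixingSubgroup) := by
      have h3 : ((d : GQ) : GQ ⧸ K.fixingSubgroup) =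
        (g : GQ ⧸ K.fixingSubgroup)⁻¹ * (g' : GQ ⧸ K.fixingSubgroup) := hdg
      rw [QuotientGroup.mk_mul, h3, mul_inv_cancel_left]
    refine ⟨g' * (g * d)⁻¹, ?_, d, hd, by group⟩
    rw [← QuotientGroup.eq_one_iff, QuotientGroup.mk_mul, QuotientGroup.mk_inv, ← h2,
      mul_inv_cancel]
  · rintro ⟨k, hk, d, hd, rfl⟩
    refine congrArg (Sigma.mk q) ?_
    rw [QuotientGroup.eq]
    refine ⟨d, hd, ?_⟩
    change ((d : GQ) : GQ ⧸ K.fixingSubgroup) = (g : GQ ⧸ K.fixingSubgroup)⁻¹ *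
      ((k * g * d : GQ) : GQ ⧸ K.fixingSubgroup)
    rw [QuotientGroup.mk_mul, QuotientGroup.mk_mul, (QuotientGroup.eq_one_iff k).mpr hk, one_mul,
      inv_mul_cancel_left]

/-- representative -/
def repF (e : SfK K S A) : GQ := Classical.choose (exists_cosF e)

theorem cosF_repF (e : SfK K S A) : cosF A e.1 (repF e) = e := Classical.choose_spec (exists_cosF e)

/-- the valuation at `e` -/
def lamF (w : S → Qb → ℝ) (x : Qb) (e : SfK K S A) : ℝ := w e.1 ((repF e)⁻¹ x)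

theorem lamF_cos {w : S → Qb → ℝ} (hw : ∀ q : S, NVal (A q) ((q : Nat.Primes) : ℕ) (w q)) {x : Qb}
    (hx : x ∈ K) (q : S) (g : GQ) : lamF w x (cosF A q g : SfK K S A) = w q (g⁻¹ x) := by
  have h1 := cosF_repF (cosF A q g : SfK K S A)
  obtain ⟨k, hk, d, hd, h2⟩ := (cosF_eq_iff q _ _).mp h1
  have h3 : g⁻¹ x = d⁻¹ ((repF (cosF A q g : SfK K S A))⁻¹ x) := by
    have h4 : g⁻¹ = d⁻¹ * (repF (cosF A q g : SfK K S A))⁻¹ * k⁻¹ := by
      conv_lhs => rw [h2]
      group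
    have h5 : k⁻¹ x = x :=
      (IntermediateField.mem_fixingSubgroup_iff K _).mp (K.fixingSubgroup.inv_mem hk) x hx
    rw [h4, AlgEquiv.mul_apply, AlgEquiv.mul_apply, h5]
  rw [h3, (hw q).w_smul (Subgroup.inv_mem _ hd)]
  rfl

/-- equivariance -/
theorem lamF_smul {w : S → Qb → ℝ} (hw : ∀ q : S, NVal (A q) ((q : Nat.Primes) : ℕ) (w q)) {x : Qb}
    (hx : x ∈ K) (h : GQ) (e : SfK K S A) :
    lamF w (h x) e = lamF w x ((h : GQ ⧸ K.fixingSubgroup)⁻¹ • e) := by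
  obtain ⟨g, hg⟩ := exists_cosF e
  rw [← hg, lamF_cos hw (mem_of_normal hx h), ← QuotientGroup.mk_inv, smul_cosF, lamF_cos hw hx,
    mul_inv_rev, inv_inv]
  rfl

theorem lamF_mul {w : S → Qb → ℝ} (hw : ∀ q : S, NVal (A q) ((q : Nat.Primes) : ℕ) (w q)) {x y : Qb}
    (hx : x ≠ 0) (hy : y ≠ 0) (e : SfK K S A) : lamF w (x * y) e = lamF w x e + lamF w y e := by
  unfold lamF
  rw [map_mul, (hw e.1).w_mul ((map_ne_zero _).mpr hx) ((map_ne_zero _).mpr hy)]

/-! ### the places -/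

variable [NumberField K] (hA : ∀ q : S, (A q).LiesOverPrime ((q : Nat.Primes) : ℕ))

/-- the prime of `K` attached to `e` -/
def plF (e : SfK K S A) : HeightOneSpectrum (𝓞 K) :=
  H02L.plc (A := repF e • A e.1) (q := ((e.1 : Nat.Primes) : ℕ)) (e.1 : Nat.Primes).2
    ((H05.liesOverPrime_smul_iff (repF e) (A e.1) _).mpr (hA e.1)) K

theorem primeUnder_plF (e : SfK K S A) : PrimeUnder (repF e • A e.1) K (plF hA e) :=
  H02L.primeUnder_plc _ _ K

theorem lamF_eps {w : S → Qb → ℝ} (hw : ∀ q : S, NVal (A q) ((q : Nat.Primes) : ℕ) (w q))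
    (e : SfK K S A) : ∃ ε : ℝ, 0 < ε ∧ ∀ x : (K : Type)ˣ,
      lamF w ((x : K) : Qb) e = ordv (plF hA e) x * ε :=
  H02L.exists_eps (H02L.NVal_smul (hw e.1) (repF e)) (primeUnder_plF hA e)

theorem plF_injective : Function.Injective (plF (K := K) hA) := by
  intro e e' h
  have h1 := primeUnder_plF hA e
  have h2 := primeUnder_plF hA e'
  rw [h] at h1
  have l1 := (H05.liesOverPrime_smul_iff (repF e) (A e.1) _).mpr (hA e.1)
  have l2 := (H05.liesOverPrime_smul_iff (repF e') (A e'.1) _).mpr (hA e'.1)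
  obtain ⟨k, hk, hkA⟩ := H02L.exists_conj (e.1 : Nat.Primes).2 l1 h1 h2
  have l3 : (repF e' • A e'.1).LiesOverPrime ((e.1 : Nat.Primes) : ℕ) := by
    rw [← hkA]
    exact (H05.liesOverPrime_smul_iff k _ _).mpr l1
  have hq : e.1 = e'.1 := by
    apply Subtype.ext
    apply Nat.Primes.coe_nat_injective
    exact H02M.eq_of_liesOver (e.1 : Nat.Primes).2 (e'.1 : Nat.Primes).2 l3 l2
  rw [← cosF_repF e, ← cosF_repF e', hq, cosF_eq_iff]
  rw [hq] at hkA
  refine ⟨k, hk, (k * repF e)⁻¹ * repF e', ?_, by group⟩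
  change ((k * repF e)⁻¹ * repF e') • A e'.1 = A e'.1
  rw [mul_smul, inv_smul_eq_iff, mul_smul, hkA]

theorem plF_mem (e : SfK K S A) : plF hA e ∈ H02M.SK S K :=
  ⟨e.1, e.1.2, _, (H05.liesOverPrime_smul_iff (repF e) (A e.1) _).mpr (hA e.1),
    primeUnder_plF hA e⟩

theorem plF_surj (v : HeightOneSpectrum (𝓞 K)) (hv : v ∈ H02M.SK S K) :
    ∃ e : SfK K S A, plF hA e = v := by
  haveI := Fermat.Agent.H51.isGalois_Qbar
  obtain ⟨q, hq, B, hB, hBv⟩ := hv
  obtain ⟨g, hg⟩ := H05.exists_smul_eq q.2 (hA ⟨q, hq⟩) hB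
  refine ⟨cosF A ⟨q, hq⟩ g, ?_⟩
  obtain ⟨k, hk, d, hd, h2⟩ := (cosF_eq_iff ⟨q, hq⟩ _ _).mp
    (cosF_repF (cosF A ⟨q, hq⟩ g : SfK K S A)).symm
  have h3 : repF (cosF A ⟨q, hq⟩ g : SfK K S A) • A ⟨q, hq⟩ = k • B := by
    rw [h2, mul_smul, mul_smul]
    have hd' : d • A ⟨q, hq⟩ = A ⟨q, hq⟩ := hd
    rw [hd', hg]
  have h4 : PrimeUnder (k • B) K v := by
    intro x
    rw [ValuationSubring.mem_pointwise_smul_iff_inv_smul_mem]
    have h5 : k⁻¹ • (x : Qb) = x :=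
      (IntermediateField.mem_fixingSubgroup_iff K _).mp (K.fixingSubgroup.inv_mem hk) x x.2
    rw [h5]
    exact hBv x
  have h5 := primeUnder_plF hA (cosF A ⟨q, hq⟩ g : SfK K S A)
  have h6 : repF (cosF A ⟨q, hq⟩ g : SfK K S A) • A (cosF A ⟨q, hq⟩ g : SfK K S A).1 = k • B := h3
  rw [h6] at h5
  apply HeightOneSpectrum.ext
  rw [← H02L.primeOf_of_primeUnder h5, ← H02L.primeOf_of_primeUnder h4]

/-- the bijection -/
def eqvF : SfK K S A ≃ H02M.SK S K :=
  Equiv.ofBijective (fun e => ⟨plF hA e, plF_mem hA e⟩)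
    ⟨fun e e' h => plF_injective hA (congrArg Subtype.val h), fun v => by
      obtain ⟨e, he⟩ := plF_surj hA v.1 v.2
      exact ⟨e, Subtype.ext he⟩⟩

end Fermat.Agent.H23.EC
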