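import Fermat.Agent.H23.EC.Places

/-!
# Infinite places
-/

set_option autoImplicit false
set_option linter.unusedSectionVars false
set_option linter.style.haveILetI false

noncomputable section

namespace Fermat.Agent.H23.EC

open Module NumberField IsDedekindDomain Fermat.Agent.CFT Fermat.Agent.CFT.EC Fermat.Agent.CC
open scoped Pointwise

variable {K : IntermediateField ℚ Qb} [K.fixingSubgroup.Normal]

/-- the coset of `g` -/
def cosI (K : IntermediateField ℚ Qb) [K.fixingSubgroup.Normal] (g : GQ) : SooK K :=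
  (((g : GQ ⧸ K.fixingSubgroup)) : (GQ ⧸ K.fixingSubgroup) ⧸
    (Subgroup.zpowers (QuotientGroup.mk' K.fixingSubgroup cc)))

theorem exists_cosI (e : SooK K) : ∃ g : GQ, cosI K g = e := by
  obtain ⟨γ, rfl⟩ := QuotientGroup.mk_surjective e
  obtain ⟨g, rfl⟩ := QuotientGroup.mk_surjective γ
  exact ⟨g, rfl⟩

theorem smul_cosI (h g : GQ) :
    (h : GQ ⧸ K.fixingSubgroup) • (cosI K g) = cosI K (h * g) := rfl

theorem cc_mem (x : GQ ⧸ K.fixingSubgroup)
    (hx : x ∈ Subgroup.zpowers (QuotientGroup.mk' K.fixingSubgroup cc)) :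
    x = 1 ∨ x = QuotientGroup.mk' K.fixingSubgroup cc := by
  obtain ⟨n, rfl⟩ := Subgroup.mem_zpowers_iff.mp hx
  have h2 : (QuotientGroup.mk' K.fixingSubgroup cc) ^ (2 : ℤ) = 1 := by
    rw [← map_zpow]
    have h3 : (cc : GQ) ^ (2 : ℤ) = 1 := by
      have := complexConjugation_sq
      exact_mod_cast this
    rw [h3, map_one]
  rcases Int.even_or_odd' n with ⟨m, rfl | rfl⟩
  · left
    rw [zpow_mul, h2, one_zpow]
  · right
    rw [zpow_add, zpow_mul, h2, one_zpow, one_mul, zpow_one]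

theorem cosI_eq_iff (g g' : GQ) :
    cosI K g = cosI K g' ↔ ∃ k ∈ K.fixingSubgroup, g' = k * g ∨ g' = k * g * cc := by
  unfold cosI
  rw [QuotientGroup.eq]
  constructor
  · intro h
    rcases cc_mem _ h with h1 | h1
    · refine ⟨g' * g⁻¹, ?_, Or.inl (by group)⟩
      rw [← QuotientGroup.eq_one_iff, QuotientGroup.mk_mul, QuotientGroup.mk_inv,
        ← inv_mul_eq_one.mp h1, mul_inv_cancel]
    · refine ⟨g' * (g * cc)⁻¹, ?_, Or.inr (by group)⟩
      have h2 : ((g * cc : GQ) : GQ ⧸ K.fixingSubgroup) = (g' : GQ ⧸ K.fixingSubgroup) := by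
        have h3 : ((cc : GQ) : GQ ⧸ K.fixingSubgroup) =
          (g : GQ ⧸ K.fixingSubgroup)⁻¹ * (g' : GQ ⧸ K.fixingSubgroup) := h1.symm
        rw [QuotientGroup.mk_mul, h3, mul_inv_cancel_left]
      rw [← QuotientGroup.eq_one_iff, QuotientGroup.mk_mul, QuotientGroup.mk_inv, ← h2,
        mul_inv_cancel]
  · rintro ⟨k, hk, rfl | rfl⟩
    · rw [QuotientGroup.mk_mul, (QuotientGroup.eq_one_iff k).mpr hk, one_mul, inv_mul_cancel]
      exact Subgroup.one_mem _
    · rw [QuotientGroup.mk_mul, QuotientGroup.mk_mul, (QuotientGroup.eq_one_iff k).mpr hk,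
        one_mul, inv_mul_cancel_left]
      exact Subgroup.mem_zpowers _

/-- representative -/
def repI (e : SooK K) : GQ := Classical.choose (exists_cosI e)

theorem cosI_repI (e : SooK K) : cosI K (repI e) = e := Classical.choose_spec (exists_cosI e)

/-- logarithm at `e` -/
def lamI (x : Qb) (e : SooK K) : ℝ := Real.log ‖complexEmbedding ((repI e)⁻¹ x)‖

theorem norm_cc (x : Qb) : ‖complexEmbedding (cc x)‖ = ‖complexEmbedding x‖ := by
  rw [complexEmbedding_complexConjugation, Complex.norm_conj]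

theorem cc_inv : (cc : GQ)⁻¹ = cc := complexConjugation_inv

theorem lamI_cos {x : Qb} (hx : x ∈ K) (g : GQ) :
    lamI x (cosI K g) = Real.log ‖complexEmbedding (g⁻¹ x)‖ := by
  obtain ⟨k, hk, h2⟩ := (cosI_eq_iff _ _).mp (cosI_repI (cosI K g)).symm
  have h5 : k⁻¹ x = x :=
    (IntermediateField.mem_fixingSubgroup_iff K _).mp (K.fixingSubgroup.inv_mem hk) x hx
  unfold lamI
  rcases h2 with h2 | h2
  · rw [h2, mul_inv_rev, AlgEquiv.mul_apply, h5]
  · rw [h2, mul_inv_rev, mul_inv_rev, AlgEquiv.mul_apply, AlgEquiv.mul_apply, h5, cc_inv, norm_cc]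

theorem lamI_smul {x : Qb} (hx : x ∈ K) (h : GQ) (e : SooK K) :
    lamI (h x) e = lamI x ((h : GQ ⧸ K.fixingSubgroup)⁻¹ • e) := by
  obtain ⟨g, rfl⟩ := exists_cosI e
  rw [lamI_cos (mem_of_normal hx h), ← QuotientGroup.mk_inv, smul_cosI, lamI_cos hx,
    mul_inv_rev, inv_inv]
  rfl

theorem lamI_mul {x y : Qb} (hx : x ≠ 0) (hy : y ≠ 0) (e : SooK K) :
    lamI (x * y) e = lamI x e + lamI y e := by
  unfold lamI
  rw [map_mul, map_mul, norm_mul, Real.log_mul]
  · exact norm_ne_zero_iff.mpr ((map_ne_zero _).mpr ((map_ne_zero _).mpr hx))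
  · exact norm_ne_zero_iff.mpr ((map_ne_zero _).mpr ((map_ne_zero _).mpr hy))

/-- embedding -/
def embI (K : IntermediateField ℚ Qb) (g : GQ) : K →+* ℂ :=
  (complexEmbedding : Qb →+* ℂ).comp (((g⁻¹ : GQ) : Qb →+* Qb).comp (algebraMap K Qb))

theorem embI_apply (g : GQ) (x : K) : embI K g x = complexEmbedding (g⁻¹ (x : Qb)) := rfl

/-- the infinite place -/
def plI (e : SooK K) : InfinitePlace K := InfinitePlace.mk (embI K (repI e))

theorem plI_cos (g : GQ) : plI (cosI K g) = InfinitePlace.mk (embI K g) := by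
  obtain ⟨k, hk, h2⟩ := (cosI_eq_iff _ _).mp (cosI_repI (cosI K g)).symm
  unfold plI
  rw [InfinitePlace.mk_eq_iff]
  have h5 : ∀ x : K, k⁻¹ (x : Qb) = x := fun x =>
    (IntermediateField.mem_fixingSubgroup_iff K _).mp (K.fixingSubgroup.inv_mem hk) x x.2
  rcases h2 with h2 | h2
  · left
    ext x
    rw [embI_apply, embI_apply, h2, mul_inv_rev, AlgEquiv.mul_apply, h5]
  · right
    ext x
    rw [ComplexEmbedding.conjugate_coe_eq, embI_apply, embI_apply, h2, mul_inv_rev, mul_inv_rev,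
      AlgEquiv.mul_apply, AlgEquiv.mul_apply, h5, cc_inv]
    erw [complexEmbedding_complexConjugation]
    rw [Complex.conj_conj]

theorem lamI_eq (x : K) (e : SooK K) : lamI (x : Qb) e = Real.log (plI e x) := rfl

theorem plI_injective : Function.Injective (plI (K := K)) := by
  intro e e' h
  obtain ⟨g, rfl⟩ := exists_cosI e
  obtain ⟨g', rfl⟩ := exists_cosI e'
  rw [plI_cos, plI_cos, InfinitePlace.mk_eq_iff] at h
  rw [cosI_eq_iff]
  rcases h with h | h
  · refine ⟨g' * g⁻¹, ?_, Or.inl (by group)⟩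
    rw [IntermediateField.mem_fixingSubgroup_iff]
    intro x hx
    have h1 := RingHom.congr_fun h ⟨x, hx⟩
    rw [embI_apply, embI_apply] at h1
    have h2 : g⁻¹ x = g'⁻¹ x := complexEmbedding.injective h1
    rw [AlgEquiv.mul_apply, h2, ← AlgEquiv.mul_apply, mul_inv_cancel, AlgEquiv.one_apply]
  · refine ⟨g' * (g * cc)⁻¹, ?_, Or.inr (by group)⟩
    rw [IntermediateField.mem_fixingSubgroup_iff]
    intro x hx
    have h1 := RingHom.congr_fun h ⟨x, hx⟩
    rw [ComplexEmbedding.conjugate_coe_eq, embI_apply, embI_apply,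
      ← complexEmbedding_complexConjugation] at h1
    have h2 : cc (g⁻¹ x) = g'⁻¹ x := complexEmbedding.injective h1
    rw [AlgEquiv.mul_apply, mul_inv_rev, cc_inv, AlgEquiv.mul_apply, h2, ← AlgEquiv.mul_apply,
      mul_inv_cancel, AlgEquiv.one_apply]

theorem plI_surjective : Function.Surjective (plI (K := K)) := by
  intro v
  haveI := Fermat.Agent.H51.isGalois_Qbar
  letI i1 : Algebra K ℂ := v.embedding.toAlgebra
  haveI : Algebra.IsAlgebraic K Qb := Algebra.IsAlgebraic.tower_top (K := ℚ) K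
  let ψ : Qb →ₐ[K] ℂ := IsAlgClosed.lift
  let ψ' : Qb →ₐ[ℚ] ℂ := (ψ : Qb →+* ℂ).toRatAlgHom
  letI i2 : Algebra Qb ℂ := (complexEmbedding : Qb →+* ℂ).toAlgebra
  haveI : IsScalarTower ℚ Qb ℂ := IsScalarTower.of_algebraMap_eq' (Subsingleton.elim _ _)
  let σ : GQ := Normal.algHomEquivAut ℚ ℂ Qb ψ'
  have h1 : ∀ x : Qb, complexEmbedding (σ x) = ψ' x := by
    intro x
    have h2 := (Normal.algHomEquivAut ℚ ℂ Qb).symm_apply_apply ψ'
    exact AlgHom.congr_fun h2 x
  refine ⟨cosI K σ⁻¹, ?_⟩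
  rw [plI_cos, ← InfinitePlace.mk_embedding v]
  congr 1
  ext x
  rw [embI_apply, inv_inv, h1]
  exact ψ.commutes x

/-- the bijection -/
def eqvI (K : IntermediateField ℚ Qb) [K.fixingSubgroup.Normal] : SooK K ≃ InfinitePlace K :=
  Equiv.ofBijective plI ⟨plI_injective, plI_surjective⟩

end Fermat.Agent.H23.EC
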