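import Fermat.Agent.H23.EC.Abs2
import Fermat.Agent.CFT.EC.Defs2
import Fermat.Agent.H02M.SPlaces
import Fermat.Agent.H02M.Beta
import Fermat.Agent.CFT.Herbrand3

/-!
# `S`-units : finite generation, rank, torsion
-/

set_option autoImplicit false
set_option linter.unusedSectionVars false
set_option linter.style.haveILetI false

noncomputable section

namespace Fermat.Agent.H23.EC

open Module NumberField IsDedekindDomain Fermat.Agent.CFT Fermat.Agent.CFT.EC Fermat.Agent.CC
open scoped Pointwise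

variable {S : Finset Nat.Primes} {K : IntermediateField ℚ Qb}

/-- element of `Kˣ` -/
def toK (x : ESK S K) : (K : Type)ˣ :=
  Units.mk0 ⟨x.1.val, x.2.1⟩ (fun h => x.1.val_ne_zero (congrArg Subtype.val h))

theorem toK_coe (x : ESK S K) : (((toK x : (K : Type)ˣ) : K) : Qb) = x.1.val := rfl

theorem toK_add (x y : ESK S K) : toK (x + y) = toK x * toK y :=
  Units.ext (Subtype.ext rfl)

theorem toK_zero : toK (0 : ESK S K) = 1 := Units.ext (Subtype.ext rfl)

variable [NumberField K]

/-- constructor -/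
def ofK (x : (K : Type)ˣ) (hx : ∀ v ∉ H02M.SK S K, ordv v x = 0) : ESK S K :=
  ⟨UL.mk ((x : K) : Qb) (by exact_mod_cast x.ne_zero), (x : K).2, (H02M.SU_iff x).mpr hx⟩

theorem ofK_val (x : (K : Type)ˣ) (hx : ∀ v ∉ H02M.SK S K, ordv v x = 0) :
    ((ofK x hx : ESK S K) : UL Qb).val = ((x : K) : Qb) := rfl

theorem toK_ofK (x : (K : Type)ˣ) (hx : ∀ v ∉ H02M.SK S K, ordv v x = 0) :
    toK (ofK x hx) = x := Units.ext (Subtype.ext rfl)

theorem ordv_toK (x : ESK S K) (v : HeightOneSpectrum (𝓞 K)) (hv : v ∉ H02M.SK S K) :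
    ordv v (toK x) = 0 :=
  (H02M.SU_iff (S := S) (toK x)).mp x.2.2 v hv

/-- divisor map -/
def dvE (S : Finset Nat.Primes) (K : IntermediateField ℚ Qb) [NumberField K] :
    ESK S K →ₗ[ℤ] (H02M.SK S K → ℤ) :=
  (AddMonoidHom.mk' (fun (x : ESK S K) (v : H02M.SK S K) => ordv v.1 (toK x))
    (fun x y => funext fun v => by
      rw [toK_add, ordv_mul]
      rfl)).toIntLinearMap

theorem dvE_apply (x : ESK S K) (v : H02M.SK S K) : dvE S K x v = ordv v.1 (toK x) := rfl

/-- units -/
def uE (S : Finset Nat.Primes) (K : IntermediateField ℚ Qb) [NumberField K] :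
    Additive (𝓞 K)ˣ →ₗ[ℤ] ESK S K :=
  (AddMonoidHom.mk' (fun (u : Additive (𝓞 K)ˣ) =>
    (ofK (unitsHom K u.toMul) (fun v _ => ordv_unitsHom v _) : ESK S K))
    (fun u v => Subtype.ext (UL.ext (by
      change (((unitsHom K (u.toMul * v.toMul) : (K : Type)ˣ) : K) : Qb) = _
      rw [map_mul]
      rfl)))).toIntLinearMap

theorem toK_uE (u : (𝓞 K)ˣ) : toK (uE S K (Additive.ofMul u)) = unitsHom K u :=
  Units.ext (Subtype.ext rfl)

theorem ker_dvE : LinearMap.ker (dvE S K) = LinearMap.range (uE S K) := by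
  ext x
  constructor
  · intro h
    obtain ⟨u, hu⟩ := exists_unit_of_ordv_eq_zero (toK x) (fun v => by
      by_cases hv : v ∈ H02M.SK S K
      · exact congrFun h ⟨v, hv⟩
      · exact ordv_toK x v hv)
    refine ⟨Additive.ofMul u, ?_⟩
    apply Subtype.ext
    apply UL.ext
    rw [← toK_coe, toK_uE, hu]
    rfl
  · rintro ⟨u, rfl⟩
    funext v
    rw [dvE_apply]
    exact ordv_unitsHom v.1 u.toMul

instance finite_SK (S : Finset Nat.Primes) (K : IntermediateField ℚ Qb) [NumberField K] :
    Finite (H02M.SK S K) := H02M.SK_finite S K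

theorem finite_ESK : Module.Finite ℤ (ESK S K) := by
  haveI : Fintype (H02M.SK S K) := Fintype.ofFinite _
  haveI h1 : Module.Finite ℤ (LinearMap.ker (dvE S K)) := by
    rw [ker_dvE]
    exact Module.Finite.range _
  haveI h2 : Module.Finite ℤ (LinearMap.range (dvE S K)) := inferInstance
  haveI h3 : Module.Finite ℤ (ESK S K ⧸ LinearMap.ker (dvE S K)) :=
    Module.Finite.equiv (dvE S K).quotKerEquivRange.symm
  exact Module.Finite.of_submodule_quotient (LinearMap.ker (dvE S K))

/-- **the rank bound** -/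
theorem finrank_ESK_le :
    finrank ℤ (ESK S K) + 1 ≤ Nat.card (H02M.SK S K) + Fintype.card (InfinitePlace K) := by
  haveI : Fintype (H02M.SK S K) := Fintype.ofFinite _
  haveI := finite_ESK (S := S) (K := K)
  have h1 := finrank_range_add_ker (dvE S K)
  have h2 : finrank ℤ (LinearMap.range (dvE S K)) ≤ Nat.card (H02M.SK S K) := by
    have h3 := Submodule.finrank_le (LinearMap.range (dvE S K))
    rw [finrank_pi] at h3
    rwa [Nat.card_eq_fintype_card]
  have h3 : finrank ℤ (LinearMap.ker (dvE S K)) ≤ Units.rank K := by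
    rw [ker_dvE]
    refine le_trans (LinearMap.finrank_range_le _) ?_
    rw [Units.finrank_eq]
  have h4 : 0 < Fintype.card (InfinitePlace K) := Fintype.card_pos
  rw [Units.rank] at h3
  omega

end Fermat.Agent.H23.EC
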