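import Fermat.Agent.H23.EC.Rank

/-!
# Torsion of the `S`-units
-/

set_option autoImplicit false
set_option linter.unusedSectionVars false
set_option linter.style.haveILetI false

noncomputable section

namespace Fermat.Agent.H23.EC

open Module NumberField IsDedekindDomain Fermat.Agent.CFT Fermat.Agent.CFT.EC Fermat.Agent.CC
open scoped Pointwise

theorem cyc_div {T : Type*} [AddCommGroup T] [IsAddCyclic T] [Finite T] {a b : ℕ}
    (h : a * b = Nat.card T) (t : T) (ht : a • t = 0) : ∃ t' : T, b • t' = t := by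
  obtain ⟨g, hg⟩ := IsAddCyclic.exists_generator (α := T)
  obtain ⟨k, rfl⟩ := AddSubgroup.mem_zmultiples_iff.mp (hg t)
  have hcard : 0 < Nat.card T := Nat.card_pos
  have ha : a ≠ 0 := by
    rintro rfl
    rw [zero_mul] at h
    omega
  have hord : addOrderOf g = a * b := by
    rw [h, ← Nat.card_zmultiples]
    have : AddSubgroup.zmultiples g = ⊤ := by
      rw [eq_top_iff]
      intro x _
      exact hg x
    rw [this, AddSubgroup.card_top]
  rw [← natCast_zsmul, smul_smul, ← addOrderOf_dvd_iff_zsmul_eq_zero, hord] at ht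
  push_cast at ht
  obtain ⟨c, hc⟩ := (mul_dvd_mul_iff_left (Int.natCast_ne_zero.mpr ha)).mp ht
  refine ⟨c • g, ?_⟩
  rw [hc, ← natCast_zsmul, smul_smul]

variable {S : Finset Nat.Primes} {K : IntermediateField ℚ Qb}

/-- multiplicative embedding of the torsion -/
def torHom (S : Finset Nat.Primes) (K : IntermediateField ℚ Qb) :
    Multiplicative (tor (ESK S K)) →* Qb where
  toFun x := ((x.toAdd : tor (ESK S K)) : ESK S K).1.val
  map_one' := rfl
  map_mul' _ _ := rfl

theorem torHom_injective : Function.Injective (torHom S K) := by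
  intro x y h
  apply Multiplicative.toAdd.injective
  exact Subtype.ext (Subtype.ext (UL.ext h))

theorem finite_tor [NumberField K] : Finite (tor (ESK S K)) := by
  haveI := finite_ESK (S := S) (K := K)
  haveI h1 : Module.Finite ℤ (AddSubgroup.toIntSubmodule (tor (ESK S K))) := inferInstance
  haveI : Module.Finite ℤ (tor (ESK S K)) := h1
  refine Module.finite_of_fg_torsion (tor (ESK S K)) fun x => ?_
  obtain ⟨n, hn, hx⟩ := x.2
  refine ⟨⟨(n : ℤ), mem_nonZeroDivisors_of_ne_zero (Int.natCast_ne_zero.mpr hn.ne')⟩, ?_⟩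
  change (n : ℤ) • x = 0
  rw [natCast_zsmul]
  exact Subtype.ext hx

theorem cyclic_tor [NumberField K] : IsAddCyclic (tor (ESK S K)) := by
  haveI := finite_tor (S := S) (K := K)
  haveI : Finite (Multiplicative (tor (ESK S K))) := this
  haveI := isCyclic_of_injective_ringHom (torHom S K) torHom_injective
  exact isCyclic_multiplicative_iff.mp this

/-- roots of unity in the `S`-units -/
def rootE (S : Finset Nat.Primes) (K : IntermediateField ℚ Qb) (n : ℕ) (hn : 0 < n) (x : UL Qb)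
    (hx : n • x = 0) (hxK : x.val ∈ K) : tor (ESK S K) :=
  ⟨⟨x, hxK, H02M.SU.of_pow hn.ne' (by
      have h1 := congrArg UL.val hx
      rw [UL.val_nsmul, UL.val_zero] at h1
      rw [h1]
      exact H02M.SU.one)⟩, n, hn, Subtype.ext hx⟩

theorem rootE_coe (n : ℕ) (hn : 0 < n) (x : UL Qb)
    (hx : n • x = 0) (hxK : x.val ∈ K) : ((rootE S K n hn x hx hxK : ESK S K) : UL Qb) = x := rfl

variable {p : ℕ} [Fact p.Prime]

theorem mem_of_root (hζ : ∃ ζ ∈ K, IsPrimitiveRoot ζ p) (x : UL Qb) (hx : p • x = 0) :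
    x.val ∈ K := by
  obtain ⟨ζ, hζK, hζ⟩ := hζ
  haveI : NeZero p := ⟨(Fact.out : p.Prime).ne_zero⟩
  have h1 := congrArg UL.val hx
  rw [UL.val_nsmul, UL.val_zero] at h1
  obtain ⟨i, -, hi⟩ := hζ.eq_pow_of_pow_eq_one h1
  rw [← hi]
  exact pow_mem hζK i

theorem finite_Mu : Finite (Mu p) := by
  haveI : NeZero p := ⟨(Fact.out : p.Prime).ne_zero⟩
  refine Finite.of_injective (β := rootsOfUnity p Qb)
    (fun m => ⟨Additive.toMul (α := Qbˣ) (TorP.incl p (UL Qb) m), ?_⟩) ?_
  · rw [mem_rootsOfUnity]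
    exact congrArg (Additive.toMul (α := Qbˣ)) (TorP.incl_mem m)
  · intro m m' h
    apply TorP.incl_injective
    exact congrArg (fun z : rootsOfUnity p Qb => (z.1 : Qbˣ)) h

theorem dvd_card_tor [NumberField K] (hζ : ∃ ζ ∈ K, IsPrimitiveRoot ζ p) :
    p ∣ Nat.card (tor (ESK S K)) := by
  obtain ⟨ζ, hζK, hζ⟩ := hζ
  have hp : p.Prime := Fact.out
  have h0 : ζ ≠ 0 := hζ.ne_zero hp.ne_zero
  have h1 : p • (UL.mk ζ h0 : UL Qb) = 0 := UL.ext (by
    rw [UL.val_nsmul, UL.val_mk, UL.val_zero, hζ.pow_eq_one])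
  set t : tor (ESK S K) := rootE S K p hp.pos (UL.mk ζ h0) h1 hζK with ht
  have h2 : addOrderOf t = p := by
    refine addOrderOf_eq_prime ?_ ?_
    · exact Subtype.ext (Subtype.ext h1)
    · intro h
      have h3 : ((t : ESK S K) : UL Qb).val = 1 := by rw [h]; rfl
      exact hζ.ne_one hp.one_lt h3
  rw [← h2]
  exact addOrderOf_dvd_natCard t

variable [K.fixingSubgroup.Normal]
  [DistribMulAction (GQ ⧸ K.fixingSubgroup) (ESK S K)]
  [DistribMulAction (GQ ⧸ K.fixingSubgroup) (Mu p)]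

/-- the map `T → μ_p` -/
def torMu [NumberField K] (hζ : ∃ ζ ∈ K, IsPrimitiveRoot ζ p) : tor (ESK S K) →+ Mu p :=
  AddMonoidHom.mk' (fun t => TorP.mk ((Nat.card (tor (ESK S K)) / p) •
      ((t : ESK S K) : UL Qb)) (by
        rw [smul_smul, Nat.mul_div_cancel' (dvd_card_tor hζ)]
        haveI := finite_tor (S := S) (K := K)
        have h1 : Nat.card (tor (ESK S K)) • t = 0 := card_nsmul_eq_zero'
        exact congrArg (fun z : tor (ESK S K) => ((z : ESK S K) : UL Qb)) h1))
    (fun x y => TorP.incl_injective (by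
      change (Nat.card (tor (ESK S K)) / p) • (((x : ESK S K) : UL Qb) + ((y : ESK S K) : UL Qb)) =
        (Nat.card (tor (ESK S K)) / p) • ((x : ESK S K) : UL Qb) +
          (Nat.card (tor (ESK S K)) / p) • ((y : ESK S K) : UL Qb)
      rw [smul_add]))

theorem d_LP_tor [NumberField K] (hζ : ∃ ζ ∈ K, IsPrimitiveRoot ζ p)
    (hE : ∀ (g : GQ) (x : ESK S K),
      (((g : GQ ⧸ K.fixingSubgroup) • x : ESK S K) : UL Qb) = g • (x : UL Qb))
    (hM : ∀ (g : GQ) (x : Mu p), ((g : GQ ⧸ K.fixingSubgroup) • x : Mu p) = g • x)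
    (E : AddF p (GQ ⧸ K.fixingSubgroup)) : E.d (LP p (tor (ESK S K))) = E.d (Mu p) := by
  have hp : p.Prime := Fact.out
  haveI := finite_tor (S := S) (K := K)
  haveI := cyclic_tor (S := S) (K := K)
  have hcard := Nat.div_mul_cancel (dvd_card_tor (S := S) hζ)
  refine d_LP E finite_Mu TorP.killed (torMu hζ) (fun γ t => ?_) (fun m => ?_) (fun t ht => ?_)
  · obtain ⟨g, rfl⟩ := QuotientGroup.mk_surjective γ
    rw [hM]
    apply TorP.incl_injective
    rw [TorP.incl_smul]
    change (Nat.card (tor (ESK S K)) / p) •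
      ((((g : GQ ⧸ K.fixingSubgroup) • (t : ESK S K) : ESK S K)) : UL Qb) =
        g • ((Nat.card (tor (ESK S K)) / p) • ((t : ESK S K) : UL Qb))
    rw [hE, smul_comm]
  · have h1 := TorP.incl_mem m
    obtain ⟨t', ht'⟩ := cyc_div (T := tor (ESK S K)) (a := p)
      (b := Nat.card (tor (ESK S K)) / p) (by rw [mul_comm]; exact hcard)
      (rootE S K p hp.pos (TorP.incl p (UL Qb) m) h1 (mem_of_root hζ _ h1))
      (Subtype.ext (Subtype.ext h1))
    refine ⟨t', TorP.incl_injective ?_⟩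
    exact congrArg (fun z : tor (ESK S K) => ((z : ESK S K) : UL Qb)) ht'
  · refine cyc_div (T := tor (ESK S K)) (a := Nat.card (tor (ESK S K)) / p) (b := p) hcard t ?_
    have h1 : TorP.incl p (UL Qb) (torMu hζ t) = 0 := by rw [ht, map_zero]
    exact Subtype.ext (Subtype.ext h1)

end Fermat.Agent.H23.EC
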