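import Fermat.Agent.H23.EC.PlacesInf
import Fermat.Agent.H23.EC.Dirichlet
import Fermat.Agent.H23.EC.Tors

/-!
# The Galois structure of `S`-units
-/

set_option autoImplicit false
set_option linter.unusedSectionVars false
set_option linter.style.haveILetI false

noncomputable section

namespace Fermat.Agent.H23.EC

open Module NumberField IsDedekindDomain Fermat.Agent.CFT Fermat.Agent.CFT.EC Fermat.Agent.CC
open Fermat.Agent.TW (NVal)
open scoped Pointwise

variable {S : Finset Nat.Primes} {K : IntermediateField ℚ Qb} [K.fixingSubgroup.Normal]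
  {A : S → ValuationSubring Qb}

/-- the finite part of the logarithm map -/
def lXm {w : S → Qb → ℝ} (hw : ∀ q : S, NVal (A q) ((q : Nat.Primes) : ℕ) (w q)) :
    ESK S K →+ (SfK K S A → ℝ) :=
  AddMonoidHom.mk' (fun x e => lamF w x.1.val e)
    (fun x y => funext fun e => lamF_mul hw x.1.val_ne_zero y.1.val_ne_zero e)

/-- the infinite part of the logarithm map -/
def lYm (S : Finset Nat.Primes) (K : IntermediateField ℚ Qb) [K.fixingSubgroup.Normal] :
    ESK S K →+ (SooK K → ℝ) :=
  AddMonoidHom.mk' (fun x e => lamI x.1.val e)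
    (fun x y => funext fun e => lamI_mul x.1.val_ne_zero y.1.val_ne_zero e)

variable [NumberField K] (hA : ∀ q : S, (A q).LiesOverPrime ((q : Nat.Primes) : ℕ))

theorem span_key {w : S → Qb → ℝ} (hw : ∀ q : S, NVal (A q) ((q : Nat.Primes) : ℕ) (w q))
    [Fintype (SfK K S A)] [Fintype (SooK K)] (hA : ∀ q : S, (A q).LiesOverPrime ((q : Nat.Primes) : ℕ))
    (a : SfK K S A → ℝ) (b : SooK K → ℝ)
    (h : ∀ x : ESK S K, ∑ e, a e * lXm hw x e + ∑ e, b e * lYm S K x e = 0)
    (hb0 : ∑ e, b e = 0) : (∀ e, a e = 0) ∧ ∀ e, b e = 0 := by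
  classical
  have hb : ∀ e, b e = 0 := by
    have h1 : ∀ u : (𝓞 K)ˣ, ∑ v : InfinitePlace K, b ((eqvI K).symm v) *
        Real.log (v (u : K)) = 0 := by
      intro u
      have h2 := h (uE S K (Additive.ofMul u))
      have h3 : ∀ e, lXm hw (uE S K (Additive.ofMul u)) e = 0 := by
        intro e
        obtain ⟨ε, hε, he⟩ := lamF_eps hA hw e
        have h4 := he (unitsHom K u)
        rw [ordv_unitsHom, Int.cast_zero, zero_mul] at h4
        exact h4
      simp_rw [h3, mul_zero] at h2
      rw [Finset.sum_const_zero, zero_add] at h2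
      rw [← h2, ← (eqvI K).sum_comp]
      refine Finset.sum_congr rfl fun e _ => ?_
      rw [Equiv.symm_apply_apply]
      rfl
    have h5 : ∑ v : InfinitePlace K, b ((eqvI K).symm v) = 0 := by
      rw [← hb0, ← (eqvI K).sum_comp]
      refine Finset.sum_congr rfl fun e _ => ?_
      rw [Equiv.symm_apply_apply]
    intro e
    have h6 := dirichlet_functional_zero _ h1 h5 (eqvI K e)
    rwa [Equiv.symm_apply_apply] at h6
  refine ⟨fun e => ?_, hb⟩
  obtain ⟨n, hn, hπ⟩ := H02M.exists_pi K
  obtain ⟨π, hπ⟩ := hπ (plF hA e)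
  have hmem : ∀ v ∉ H02M.SK S K, ordv v π = 0 := by
    intro v hv
    rw [hπ, if_neg]
    rintro rfl
    exact hv (plF_mem hA e)
  have h1 := h (ofK π hmem)
  have h2 : ∀ e', e' ≠ e → lXm hw (ofK π hmem) e' = 0 := by
    intro e' hne
    obtain ⟨ε, hε, he⟩ := lamF_eps hA hw e'
    have h4 := he π
    rw [hπ, if_neg (fun h => hne (plF_injective hA h)), Int.cast_zero, zero_mul] at h4
    exact h4
  rw [Finset.sum_eq_single e (fun e' _ hne => by rw [h2 e' hne, mul_zero])
    (fun h => absurd (Finset.mem_univ _) h)] at h1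
  simp_rw [hb, zero_mul] at h1
  rw [Finset.sum_const_zero, add_zero] at h1
  obtain ⟨ε, hε, he⟩ := lamF_eps hA hw e
  have h4 := he π
  rw [hπ, if_pos rfl] at h4
  have h5 : lXm hw (ofK π hmem) e = (n : ℤ) * ε := h4
  rw [h5] at h1
  refine (mul_eq_zero.mp h1).resolve_right (mul_ne_zero ?_ hε.ne')
  push_cast
  exact Nat.cast_ne_zero.mpr hn.ne'

end Fermat.Agent.H23.EC

namespace Fermat.Agent.H23.EC

open Module NumberField IsDedekindDomain Fermat.Agent.CFT Fermat.Agent.CFT.EC Fermat.Agent.CC
open Fermat.Agent.TW (NVal)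
open scoped Pointwise

/-- (B) **the Galois structure of `S`-units** -/
theorem unitEq_of (p : ℕ) [Fact p.Prime] (hLE : LatticeEq p) : UnitEq p := by
  intro S K _ hSK A hA _ _ hE hM E
  haveI : FiniteDimensional ℚ K := hSK.unr.1
  haveI : NumberField K := { to_charZero := inferInstance, to_finiteDimensional := inferInstance }
  haveI := fixingSubgroup_finiteIndex K
  haveI : Finite (GQ ⧸ K.fixingSubgroup) := inferInstance
  choose w hw using fun q : S => TW.exists_NVal (q : Nat.Primes).2 (hA q)
  haveI : Finite (SfK K S A) := Finite.of_equiv _ (eqvF hA).symm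
  letI : Fintype (SfK K S A) := Fintype.ofFinite _
  haveI : Finite (SooK K) := Finite.of_equiv _ (eqvI K).symm
  letI : Fintype (SooK K) := Fintype.ofFinite _
  haveI := finite_ESK (S := S) (K := K)
  refine main_abstract (p := p) (lXm hw) (lYm S K) (fun γ x e => ?_) (fun γ x e => ?_) ?_
    (span_key hw hA) hLE E (Mu p) (d_LP_tor hSK.root hE hM E)
  · obtain ⟨g, rfl⟩ := QuotientGroup.mk_surjective γ
    change lamF w ((((g : GQ ⧸ K.fixingSubgroup) • x : ESK S K) : UL Qb)).val e =
      lamF w x.1.val _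
    rw [hE]
    exact lamF_smul hw x.2.1 g e
  · obtain ⟨g, rfl⟩ := QuotientGroup.mk_surjective γ
    change lamI ((((g : GQ ⧸ K.fixingSubgroup) • x : ESK S K) : UL Qb)).val e =
      lamI x.1.val _
    rw [hE]
    exact lamI_smul x.2.1 g e
  · have h1 := finrank_ESK_le (S := S) (K := K)
    rw [← Nat.card_congr (eqvF hA), ← Nat.card_eq_fintype_card (α := InfinitePlace K),
      ← Nat.card_congr (eqvI K), Nat.card_eq_fintype_card, Nat.card_eq_fintype_card] at h1
    exact h1

end Fermat.Agent.H23.EC
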